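import Fermat.Agent.JacRep.Dict.Square
import Fermat.Agent.JacRep.Sheaf.IsoGlue

/-!
# Morphisms of restrictions along open immersions

`chartApp` evaluates a morphism of restrictions along an open immersion on an open inside the
image, `toImage` moves an isomorphism to the image, and `transferHom_eq` compares the further
restriction of a morphism with one given on the sections of a smaller affine chart.
-/

set_option autoImplicit false
set_option linter.style.haveILetI false

noncomputable section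

open CategoryTheory CategoryTheory.Limits AlgebraicGeometry Opposite

universe u

namespace FLTAgent.JacRep.Dict

variable {X Y Z : Scheme.{u}} {N N' : X.Modules}

theorem image_preimage_of_le_opensRange (f : Y ⟶ X) [IsOpenImmersion f] {W : X.Opens}
    (h : W ≤ f.opensRange) : f ''ᵁ (f ⁻¹ᵁ W) = W := by
  rw [Scheme.Hom.image_preimage_eq_opensRange_inf, inf_eq_right.mpr h]

/-- A morphism of restrictions on sections over an open inside the image. -/
def chartApp (f : Y ⟶ X) [IsOpenImmersion f] (η : N.restrict f ⟶ N'.restrict f) {W : X.Opens}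
    (h : W ≤ f.opensRange) : Γ(N, W) ⟶ Γ(N', W) :=
  N.presheaf.map (eqToHom (image_preimage_of_le_opensRange f h)).op ≫
    (η.app (f ⁻¹ᵁ W) : Γ(N, f ''ᵁ (f ⁻¹ᵁ W)) ⟶ Γ(N', f ''ᵁ (f ⁻¹ᵁ W))) ≫
      N'.presheaf.map (eqToHom (image_preimage_of_le_opensRange f h).symm).op

theorem chartApp_eq (f : Y ⟶ X) [IsOpenImmersion f] (η : N.restrict f ⟶ N'.restrict f)
    {W : X.Opens} (h : W ≤ f.opensRange) (Q : Y.Opens) (hQ : f ''ᵁ Q = W) :
    chartApp f η h = N.presheaf.map (eqToHom hQ).op ≫
      (η.app Q : Γ(N, f ''ᵁ Q) ⟶ Γ(N', f ''ᵁ Q)) ≫ N'.presheaf.map (eqToHom hQ.symm).op := by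
  obtain rfl : Q = f ⁻¹ᵁ W := by rw [← hQ, Scheme.Hom.preimage_image_eq]
  rfl

/-- Restriction along a composite in two steps. -/
def transferIso (g : Z ⟶ Y) [IsOpenImmersion g] (f : Y ⟶ X) [IsOpenImmersion f] (f' : Z ⟶ X)
    [IsOpenImmersion f'] (hf : g ≫ f = f') (N : X.Modules) :
    (N.restrict f).restrict g ≅ N.restrict f' :=
  ((Scheme.Modules.restrictFunctorComp g f).app N).symm ≪≫
    (Scheme.Modules.restrictFunctorCongr hf).app N

/-- A morphism of restrictions, restricted further. -/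
def transferHom (g : Z ⟶ Y) [IsOpenImmersion g] (f : Y ⟶ X) [IsOpenImmersion f] (f' : Z ⟶ X)
    [IsOpenImmersion f'] (hf : g ≫ f = f') (η : N.restrict f ⟶ N'.restrict f) :
    N.restrict f' ⟶ N'.restrict f' :=
  (transferIso g f f' hf N).inv ≫ (Scheme.Modules.restrictFunctor g).map η ≫
    (transferIso g f f' hf N').hom

/-- Restricting further does not change the sections. -/
theorem chartApp_transfer (g : Z ⟶ Y) [IsOpenImmersion g] (f : Y ⟶ X) [IsOpenImmersion f]
    (f' : Z ⟶ X) [IsOpenImmersion f'] (hf : g ≫ f = f') (η : N.restrict f ⟶ N'.restrict f)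
    {W : X.Opens} (h : W ≤ f.opensRange) (h' : W ≤ f'.opensRange) :
    chartApp f' (transferHom g f f' hf η) h' = chartApp f η h := by
  subst hf
  have hW : f ''ᵁ (g ''ᵁ ((g ≫ f) ⁻¹ᵁ W)) = W := by
    rw [← Scheme.Hom.comp_image, image_preimage_of_le_opensRange _ h']
  rw [chartApp_eq f η h _ hW, chartApp]
  simp only [transferHom, transferIso, Iso.trans_hom, Iso.trans_inv, Iso.app_hom, Iso.app_inv,
    Iso.symm_hom, Iso.symm_inv, Scheme.Modules.Hom.comp_app,
    Scheme.Modules.restrictFunctorComp_hom_app_app, Scheme.Modules.restrictFunctorComp_inv_app_app,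
    Scheme.Modules.restrictFunctorCongr_hom_app_app,
    Scheme.Modules.restrictFunctorCongr_inv_app_app]
  show N.presheaf.map _ ≫ ((N.presheaf.map _ ≫ N.presheaf.map _) ≫
    (η.app _ : Γ(N, f ''ᵁ (g ''ᵁ _)) ⟶ Γ(N', f ''ᵁ (g ''ᵁ _))) ≫
      (N'.presheaf.map _ ≫ N'.presheaf.map _)) ≫ N'.presheaf.map _ = _
  simp only [Category.assoc, ← Functor.map_comp]
  simp only [← Category.assoc, ← Functor.map_comp]
  simp only [Category.assoc]
  refine congrArg₂ (fun a b => a ≫ (η.app _ :
      Γ(N, f ''ᵁ (g ''ᵁ ((g ≫ f) ⁻¹ᵁ W))) ⟶ Γ(N', f ''ᵁ (g ''ᵁ ((g ≫ f) ⁻¹ᵁ W)))) ≫ b)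
    (congrArg N.presheaf.map (Subsingleton.elim _ _)) ?_
  exact (N'.presheaf.map_comp _ _).symm.trans (congrArg N'.presheaf.map (Subsingleton.elim _ _))

/-- A morphism of restrictions as a morphism over the image. -/
def toImage (f : Y ⟶ X) [IsOpenImmersion f] (η : N.restrict f ≅ N'.restrict f) :
    (Scheme.Modules.restrictFunctor f.opensRange.ι).obj N ≅
      (Scheme.Modules.restrictFunctor f.opensRange.ι).obj N' :=
  (transferIso f.isoOpensRange.inv f _ f.isoOpensRange_inv_comp N).symm ≪≫
    (Scheme.Modules.restrictFunctor f.isoOpensRange.inv).mapIso η ≪≫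
      transferIso f.isoOpensRange.inv f _ f.isoOpensRange_inv_comp N'

theorem locApp_toImage (f : Y ⟶ X) [IsOpenImmersion f] (η : N.restrict f ≅ N'.restrict f)
    {W : X.Opens} (h : W ≤ f.opensRange) :
    Glue.locApp f.opensRange (toImage f η).hom h = chartApp f η.hom h :=
  chartApp_transfer f.isoOpensRange.inv f _ f.isoOpensRange_inv_comp η.hom h
    (h.trans (Scheme.Opens.opensRange_ι _).ge)

/-- A morphism of restrictions compatible on global sections restricts to the one on a smaller
chart. -/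
theorem transferHom_eq {R S : Type u} [CommRing R] [CommRing S] {L L' : X.Modules} (φ : R →+* S)
    [IsOpenImmersion (Spec.map (CommRingCat.ofHom φ))]
    (q₀ : Spec (CommRingCat.of R) ⟶ X) [IsOpenImmersion q₀]
    (q : Spec (CommRingCat.of S) ⟶ X) [IsOpenImmersion q]
    (h : Spec.map (CommRingCat.ofHom φ) ≫ q₀ = q) (hL : Scheme.Modules.IsInvertible L)
    (η : L.restrict q₀ ⟶ L'.restrict q₀) (e : L.restrict q ⟶ L'.restrict q)
    (he : ∀ x, secMap e (chartRes φ q₀ q h L x) = chartRes φ q₀ q h L' (secMap η x)) :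
    transferHom (Spec.map (CommRingCat.ofHom φ)) q₀ q h η = e := by
  haveI := qc_of_invertible (invertible_restrict q hL)
  refine hom_ext_sec (LinearMap.ext_on_range (span_chartRes φ q₀ q h hL) fun x => ?_)
  rw [he]
  show secMap (transferHom (Spec.map (CommRingCat.ofHom φ)) q₀ q h η)
      (secMap (chartIso φ q₀ q h L).hom (resSec φ (L.restrict q₀) x)) =
    secMap (chartIso φ q₀ q h L').hom (resSec φ (L'.restrict q₀) (secMap η x))
  rw [show resSec φ (L'.restrict q₀) (secMap η x) =
      secMap ((Scheme.Modules.restrictFunctor (Spec.map (CommRingCat.ofHom φ))).map η)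
        (resSec φ (L.restrict q₀) x) from adjSec_natural _ η x]
  show secMap ((chartIso φ q₀ q h L).hom ≫
      transferHom (Spec.map (CommRingCat.ofHom φ)) q₀ q h η) (resSec φ (L.restrict q₀) x) =
    secMap ((Scheme.Modules.restrictFunctor (Spec.map (CommRingCat.ofHom φ))).map η ≫
      (chartIso φ q₀ q h L').hom) (resSec φ (L.restrict q₀) x)
  refine LinearMap.congr_fun (congrArg secMap ?_) _
  show (chartIso φ q₀ q h L).hom ≫ (chartIso φ q₀ q h L).inv ≫ _ ≫ _ = _
  rw [Iso.hom_inv_id_assoc]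
  rfl

end FLTAgent.JacRep.Dict
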